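import Fermat.Agent.S38T.IA.Hecke.H183.CmpSpecIA
import Fermat.Agent.S38.H227.DictR
import Fermat.Agent.S38.H47.TwistHypIA
import Fermat.Agent.S38.H47.NiceLift
import Fermat.Agent.S59.TW.H324.CuspPkg
import Fermat.Agent.S59.TW.Aut.H673.FrontDVR
import Fermat.Agent.S58.H94.EigChar
import Fermat.Agent.S59.Arch.WilesLevel

/-!
# S59 (B2), cell HECKE-T, leaf IA-CMP, sub-leaf IA-DICT-R: the `ty`-generic twin   (helper227)

`iaDictR227_T : H183.IADictRStatement_T` (VERBATIM, `S38T/IA/Hecke/H183/CmpSpecIA.lean`, helper3):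
the twin of `H227.iaDictR227` for every type `ty` at `p` and every odd `p`.  NOT a script twin:
the proof uses only `ty`-generic lemmas (`Arch.factorization_wilesLevel`,
`Arch.wilesLevel_ne_zero`, `Arch.mem_of_prime_dvd_wilesLevel`, `H47.twistHyp_KG`,
`H47.gLevel_mul_prod_IA`, `H47.exists_niceLift`, `H324.isLocPart_parabolic_of_pkg`) and the
generic core `H227.dictR_core`; neither `3 ≤ p` nor the type hypothesis is used.
-/

set_option autoImplicit false
set_option linter.unusedSectionVars false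
set_option linter.unusedVariables false
set_option linter.style.haveILetI false

open Polynomial IsLocalRing CongruenceSubgroup
open scoped MatrixGroups

namespace Fermat.Agent.S38.H227

open Fermat.Agent.S59.Arch Fermat.Agent.S59.TW.H959 Fermat.Agent.S59.TW Fermat.Agent.S59.H765
open Fermat.Agent.S59.TW.H653 Fermat.Agent.S59.TW.Aut Fermat.Agent.S59.TW.H658
open Fermat.Agent.S38.IA Fermat.Agent.S38.IA.Hecke Fermat.Agent.S38.IA.Hecke.H183
open Fermat.Agent.S38.H47
open CuspForm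

/-- **IA-DICT-R**, `ty`-generic twin (VERBATIM). -/
theorem iaDictR227_T : IADictRStatement_T := by
  intro p hpF hp5 𝒪 _ _ _ _ _ _ ρbar Smin hR ty hty Piv hPiv k pv hpv hpvPiv n r qv hq hNQ PQ α hα
    V h a hV hhalf₁ hhalf₂ ha j u hu y hy hsum
  classical
  subst hpvPiv
  have hpvP : ∀ i, (pv i).Prime := fun i =>
    (hPiv (pv i) (Finset.mem_image_of_mem pv (Finset.mem_univ i))).1
  have hqvP : ∀ j, (qv j).Prime := fun j => (hq.2.1 j).1
  -- the standing facts
  have hpvMem : ∀ i, pv i ∈ Finset.univ.image pv := fun i =>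
    Finset.mem_image_of_mem pv (Finset.mem_univ i)
  have hpvS : ∀ i, pv i ∉ Smin := fun i => (hPiv (pv i) (hpvMem i)).2.1
  have hqvS : ∀ j, qv j ∉ Smin := fun j hj => (hq.2.1 j).2.1 (Finset.mem_union_left _ hj)
  have hdisj : ∀ i j, pv i ≠ qv j := fun i j hij =>
    (hq.2.1 j).2.1 (Finset.mem_union_right _ (hij ▸ hpvMem i))
  have hinj : Function.Injective (Sum.elim pv qv) := elim_injective pv qv hpv hq.1 hdisj
  have hprime : ∀ s, (Sum.elim pv qv s).Prime := by
    rintro (i | j)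
    · exact hpvP i
    · exact hqvP j
  have hN₀ : wilesLevel p ty Smin Smin ≠ 0 := wilesLevel_ne_zero hpF.out hR.hSmin hR.hSmin
  have hcop : ∀ s, Nat.Coprime (wilesLevel p ty Smin Smin) (Sum.elim pv qv s) := by
    intro s
    refine Nat.Coprime.symm ((Nat.Prime.coprime_iff_not_dvd (hprime s)).mpr fun hd => ?_)
    have hmem : Sum.elim pv qv s ∈ Smin :=
      mem_of_prime_dvd_wilesLevel hpF.out hR.hSmin hR.hSmin hR.hpSmin (Finset.Subset.refl _)
        _ (hprime s) hd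
    rcases s with i | j
    · exact hpvS i hmem
    · exact hqvS j hmem
  have hsub : Smin ⊆ Smin ∪ Finset.univ.image pv ∪ Finset.univ.image qv :=
    Finset.subset_union_left.trans Finset.subset_union_left
  have hSigP : ∀ q ∈ Smin ∪ Finset.univ.image pv ∪ Finset.univ.image qv, q.Prime := by
    intro q hq'
    rcases Finset.mem_union.mp hq' with h' | h'
    · rcases Finset.mem_union.mp h' with h'' | h''
      · exact hR.hSmin q h''
      · exact (hPiv q h'').1
    · obtain ⟨j, -, rfl⟩ := Finset.mem_image.mp h'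
      exact hqvP j
  have hsurj : Function.Surjective (gRed (wilesLevel p ty Smin Smin) (Sum.elim pv qv)) :=
    gRed_surjective _ _ hN₀ hinj hprime
  have hMne : MIA_T p ty Smin pv qv ≠ 0 := gLevel_ne_zero _ _ hN₀ hprime
  haveI : NeZero (MIA_T p ty Smin pv qv) := ⟨hMne⟩
  have hsig : ∀ q : ℕ, q.Prime →
      q ∣ wilesLevel p ty Smin (Smin ∪ Finset.univ.image pv ∪ Finset.univ.image qv) →
      q ∈ (↑(Smin ∪ Finset.univ.image pv ∪ Finset.univ.image qv) : Set ℕ) := fun q hqP hqd =>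
    Finset.mem_coe.mpr (Fermat.Agent.S59.Arch.mem_of_prime_dvd_wilesLevel hpF.out hR.hSmin hSigP
      hR.hpSmin hsub q hqP hqd)
  have hH : TwistHyp (KIA_T p ty Smin pv qv)
      (wilesLevel p ty Smin (Smin ∪ Finset.univ.image pv ∪ Finset.univ.image qv))
      (fun ℓ => uOf (MIA_T p ty Smin pv qv) ℓ ^ h) :=
    twistHyp_KG p (wilesLevel p ty Smin Smin) (Sum.elim pv qv) hinj hprime hcop
      (isHalfG_elim p pv qv hhalf₁ hhalf₂)
      (by rw [gLevel_mul_prod_IA p Smin pv qv ty hpv hq.1 hdisj hpvS hqvS])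
  have hvfac : (wilesLevel p ty Smin
      (Smin ∪ Finset.univ.image pv ∪ Finset.univ.image qv)).factorization (qv j) = 2 := by
    rw [Fermat.Agent.S59.Arch.factorization_wilesLevel hpF.out hR.hSmin hSigP]
    have h1 : qv j ∉ Smin.erase p := fun hm => hqvS j (Finset.mem_of_mem_erase hm)
    have h2 : qv j ∈ (Smin ∪ Finset.univ.image pv ∪ Finset.univ.image qv) \ Smin :=
      Finset.mem_sdiff.mpr ⟨Finset.mem_union_right _
        (Finset.mem_image_of_mem qv (Finset.mem_univ j)), hqvS j⟩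
    have h3 : ¬ (ty ≠ PType.flat ∧ qv j = p) := fun hh => hqvS j (hh.2 ▸ hR.hpSmin)
    rw [if_neg h1, if_pos h2, if_neg h3]
  have hK : IsMid (MIA_T p ty Smin pv qv) (KIA_T p ty Smin pv qv) := isMid_KIA_T p ty Smin pv qv
  haveI : (KIA_T p ty Smin pv qv).FiniteIndex :=
    Fermat.Agent.S59.TW.H564.finiteIndex_of_Gamma1_le (M := MIA_T p ty Smin pv qv) hK.ge
  -- the nice lift of the diamond index at `q_j`
  obtain ⟨d₀, hd₀, hd₀1⟩ :=
    exists_niceLift (wilesLevel p ty Smin Smin) (Sum.elim pv qv) hN₀ hinj hprime hcop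
      (pairU (1 : ∀ i : Fin k, (ZMod (pv i))ˣ) (Pi.mulSingle j u))
  have hdia : ∀ y : XIA_T p ty Smin pv qv 𝒪,
      diamondU hK d₀ y = diaIA_T p ty Smin pv qv 𝒪 1 (Pi.mulSingle j u) y := fun y =>
    diamondU_eq_gLift p (wilesLevel p ty Smin Smin) (Sum.elim pv qv) hsurj hd₀ y
  have hiter : ∀ (i : ℕ) (y : XIA_T p ty Smin pv qv 𝒪),
      (diamondU hK d₀)^[i] y = (diaIA_T p ty Smin pv qv 𝒪 1 (Pi.mulSingle j u))^[i] y := by
    intro i
    induction i with
    | zero => intro y; rfl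
    | succ i ih =>
      intro y
      rw [Function.iterate_succ_apply, Function.iterate_succ_apply, hdia, ih]
  have hd : (∑ i ∈ Finset.range p,
      (diamondU hK d₀)^[i] (y : XIA_T p ty Smin pv qv 𝒪)) = 0 := by
    rw [← hsum]
    exact Finset.sum_congr rfl fun i _ => hiter i _
  -- parabolic classes
  have hpar : ∀ v ∈ V, ModularCurve.Period.IsParabolicHom (KIA_T p ty Smin pv qv) v :=
    Fermat.Agent.S59.TW.H324.isLocPart_parabolic_of_pkg p 𝒪 ρbar Smin hR ty _ hsub hSigP PQ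
      hMne hK hV
  -- the point of the prime `Ann y`
  let 𝔔 : Ideal PQ.T :=
    { carrier := {s | a s y = 0}
      add_mem' := fun {s t} hs ht => by
        show a (s + t) y = 0
        rw [map_add, LinearMap.add_apply, (hs : a s y = 0), (ht : a t y = 0), add_zero]
      zero_mem' := by
        show a 0 y = 0
        rw [map_zero, LinearMap.zero_apply]
      smul_mem' := fun c s hs => by
        show a (c • s) y = 0
        rw [smul_eq_mul, map_mul, Module.End.mul_apply, (hs : a s y = 0), map_zero] }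
  have h𝔔mem : ∀ s : PQ.T, s ∈ 𝔔 ↔ a s y = 0 := fun s => Iff.rfl
  haveI h𝔔p : 𝔔.IsPrime := by
    refine ⟨?_, ?_⟩
    · intro htop
      have h1 : (1 : PQ.T) ∈ 𝔔 := by rw [htop]; exact Submodule.mem_top
      rw [h𝔔mem, map_one, Module.End.one_apply] at h1
      exact hy.1 h1
    · intro s t hst
      exact hy.2 s t hst
  have h𝔔𝒪 : ∀ c : 𝒪, algebraMap 𝒪 PQ.T c ∈ 𝔔 → c = 0 := by
    intro c hc
    rw [h𝔔mem, AlgHom.commutes, Module.algebraMap_end_apply] at hc
    by_contra hc0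
    apply hy.1
    apply Subtype.ext
    have h1 : c • (y : XIA_T p ty Smin pv qv 𝒪) = 0 := by
      have := congrArg Subtype.val hc
      simpa using this
    refine AddMonoidHom.ext fun g => ?_
    have h2 := DFunLike.congr_fun h1 g
    rw [AddMonoidHom.smul_apply, AddMonoidHom.zero_apply, smul_eq_mul] at h2
    rcases mul_eq_zero.mp h2 with h3 | h3
    · exact absurd h3 hc0
    · simpa using h3
  obtain ⟨O', i1, i2, i3, i4, i5, i6, i7, ev, hloc, hinjO, hev⟩ :=
    Fermat.Agent.S59.TW.Aut.H673.exists_dvr_point 𝒪 PQ.T 𝔔 h𝔔𝒪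
  haveI := hloc
  haveI : Algebra.IsIntegral 𝒪 PQ.T := Algebra.IsIntegral.of_finite 𝒪 PQ.T
  have hlocT : IsLocalHom ev.toRingHom :=
    Fermat.Agent.S59.TW.Aut.H673.isLocalHom_of_integral_h673 𝒪 PQ.T O' ev.toRingHom
      (fun c => AlgHom.commutes ev c)
  have hker : ∀ s : PQ.T, a s y = 0 ↔ ev.toRingHom s = 0 := fun s =>
    ((hev s).trans (h𝔔mem s)).symm
  -- the levels
  have hNM : ∀ r' : ℕ, r'.Prime →
      r' ∣ wilesLevel p ty Smin (Smin ∪ Finset.univ.image pv ∪ Finset.univ.image qv) →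
      r' ∣ MIA_T p ty Smin pv qv := by
    intro r' hr hrN
    rw [← gLevel_mul_prod_IA p Smin pv qv ty hpv hq.1 hdisj hpvS hqvS] at hrN
    rcases (Nat.Prime.dvd_mul hr).mp hrN with h1 | h1
    · exact h1
    · obtain ⟨s, -, hs⟩ := (Prime.dvd_finsetProd_iff hr.prime _).mp h1
      exact hs.trans (dvd_gLevel _ _ s)
  have hdvq : ∀ q : ℕ, q.Prime → q ∣ MIA_T p ty Smin pv qv → q ≠ qv j →
      (((((d₀ : (ZMod (MIA_T p ty Smin pv qv))ˣ) :
        ZMod (MIA_T p ty Smin pv qv)).val : ℕ) : ℤ) : ZMod q) = 1 := by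
    intro q hqP hqM hqne
    refine cast_niceLift_of_prime (wilesLevel p ty Smin Smin) (Sum.elim pv qv) hprime
      hd₀ hd₀1 hqP hqM ?_
    rintro (i | j') hne
    · exact absurd rfl hne
    · by_cases hjj : j' = j
      · subst hjj
        exact hqne
      · exfalso
        apply hne
        show (Pi.mulSingle j u : ∀ j : Fin r, (ZMod (qv j))ˣ) j' = 1
        exact Pi.mulSingle_eq_of_ne (M := fun j => (ZMod (qv j))ˣ) hjj u
  -- the dictionary
  obtain ⟨chiF, jj, M₁, hM₁, g, hj, hg, hM₁N, hM₁v, hgF⟩ :=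
    dictR_core hK hH
      (↑(Smin ∪ Finset.univ.image pv ∪ Finset.univ.image qv) : Set ℕ) hsig hNM V hpar
      a.toRingHom PQ.H.π (fun i v => ha i.1 i.2.1 i.2.2.1 i.2.2.2 v) y hpF.out.ne_zero d₀ hd
      ev.toRingHom (fun t ht => (hker t).mp ht) hvfac hdvq
  haveI := hM₁
  have hM₁S : ∀ q : ℕ, q.Prime → q ∣ M₁ →
      q ∈ (↑(Smin ∪ Finset.univ.image pv ∪ Finset.univ.image qv) : Set ℕ) :=
    fun q hqP hqd => hsig q hqP (hqd.trans hM₁N)
  have hNS : ∀ ℓ : ℕ, ℓ.Prime →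
      ℓ ∉ (↑(Smin ∪ Finset.univ.image pv ∪ Finset.univ.image qv) : Set ℕ) →
      ¬ ℓ ∣ wilesLevel p ty Smin (Smin ∪ Finset.univ.image pv ∪ Finset.univ.image qv) :=
    fun ℓ hℓ hℓS hd => hℓS (hsig ℓ hℓ hd)
  -- the eigen-character of `g`
  have hle : (Fermat.Agent.S58.H94.chigOf hg.1
      (↑(Smin ∪ Finset.univ.image pv ∪ Finset.univ.image qv) : Set ℕ)).range ≤ chiF.range :=
    Fermat.Agent.S58.H94.chigOf_range_le hg.1 _ chiF.range
      (fun ℓ hℓ hℓM hℓS => by
        rw [hgF ℓ hℓ (hNS ℓ hℓ hℓS) hℓS]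
        exact ⟨_, rfl⟩) hM₁S
  refine ⟨O', i1, i2, i3, i4, i5, i6, ev.toRingHom, hlocT, hker, M₁, hM₁, g, hg, hM₁v, hM₁S,
    Fermat.Agent.S58.H94.chigOf hg.1 _, jj.comp (Subring.inclusion hle), ?_, ?_⟩
  · intro ℓ hℓ hℓM hℓS
    exact Fermat.Agent.S58.H94.chigOf_T hg.1 _ hℓ hℓM hℓS
  · intro ℓ hℓ hℓN hℓM hℓS
    rw [← hj]
    rw [RingHom.comp_apply]
    congr 1
    apply Subtype.ext
    show Fermat.Agent.S58.H94.chigOf hg.1 _ (CuspForm.heckeAlgebra.T hℓ hℓM hℓS) =
      chiF (CuspForm.heckeAlgebra.T hℓ hℓN hℓS)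
    rw [Fermat.Agent.S58.H94.chigOf_T hg.1 _ hℓ hℓM hℓS, hgF ℓ hℓ hℓN hℓS]

end Fermat.Agent.S38.H227
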